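import Mathlib
import Fermat.Prelude.Def_ModularCurve_PeriodMapBundled
import Fermat.Prelude.Thm_Subgroup_IsArithmetic_exists_nat_mem_strictPeriods_conj
import Fermat.Prelude.Thm_CongruenceSubgroup_one_mem_strictPeriods_Gamma0

/-!
# S21-A: existence of the equivariant decaying primitive of a weight 2 cusp form

For `f : CuspForm (Gamma0 N) 2` we construct `F : ℍ → ℂ` with `F' = f`, `F → 0` at `i∞`,
`F ∘ γ - F` constant for `γ ∈ Γ₀(N)`, and `F ∘ δ` having a limit at `i∞` for every `δ ∈ SL(2, ℤ)`.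
-/

set_option autoImplicit false

namespace Fermat.Agent.H63

open Filter Topology Complex Function
open UpperHalfPlane hiding I
open scoped MatrixGroups ModularForm Manifold Real

/-- A holomorphic, `h`-periodic function on the upper half plane which tends to zero at `i∞`
has a primitive which tends to zero at `i∞`. -/
theorem exists_decaying_primitive (h : ℝ) (hh : 0 < h) (g : ℍ → ℂ)
    (hper : Periodic (g ∘ ofComplex) h) (hhol : MDiff g) (hzero : IsZeroAtImInfty g) :
    ∃ G : ℍ → ℂ, (∀ τ : ℍ, HasDerivAt (G ∘ ofComplex) (g τ) ↑τ) ∧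
      Tendsto G atImInfty (𝓝 0) := by
  classical
  set c : ℂ → ℂ := cuspFunction h g with hc
  have hcdiff : DifferentiableOn ℂ c (Metric.ball 0 1) :=
    differentiableOn_cuspFunction_ball hh hper hhol hzero.isBoundedAtImInfty
  have hc0 : c 0 = 0 := hzero.cuspFunction_apply_zero hh
  have hball : Metric.ball (0 : ℂ) 1 ∈ 𝓝 (0 : ℂ) := Metric.ball_mem_nhds 0 one_pos
  have hddiff : DifferentiableOn ℂ (dslope c 0) (Metric.ball 0 1) :=
    (differentiableOn_dslope hball).2 hcdiff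
  have hcd : ∀ q : ℂ, c q = q * dslope c 0 q := by
    intro q
    have := sub_smul_dslope c 0 q
    simpa [hc0, smul_eq_mul] using this.symm
  -- the primitive on the disc
  set κ : ℂ := (h : ℂ) / (2 * π * I) with hκ
  have hκdiff : DifferentiableOn ℂ (fun q => κ * dslope c 0 q) (Metric.ball 0 1) :=
    hddiff.const_mul κ
  obtain ⟨K, hK0, hK⟩ : ∃ K : ℂ → ℂ, K 0 = 0 ∧
      ∀ q ∈ Metric.ball (0 : ℂ) 1, HasDerivAt K (κ * dslope c 0 q) q :=
    (hκdiff.isExactOn_ball).with_val_at 0 0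
  have hqnorm : ∀ τ : ℍ, Periodic.qParam h τ ∈ Metric.ball (0 : ℂ) 1 := by
    intro τ
    rw [mem_ball_zero_iff]
    exact Periodic.norm_qParam_lt_one hh τ.im_pos
  have h2pi : (2 * π * I : ℂ) ≠ 0 := by
    simp [Real.pi_ne_zero, Complex.I_ne_zero]
  have hhC : (h : ℂ) ≠ 0 := by exact_mod_cast hh.ne'
  refine ⟨fun τ => K (Periodic.qParam h τ), fun τ => ?_, ?_⟩
  · -- derivative
    have hq : HasDerivAt (Periodic.qParam h) (Periodic.qParam h τ * (2 * π * I / h)) (τ : ℂ) := by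
      have h1 : HasDerivAt (fun z : ℂ => 2 * π * I * z / h) (2 * π * I / h) (τ : ℂ) := by
        have := ((hasDerivAt_id (τ : ℂ)).const_mul (2 * π * I : ℂ)).div_const (h : ℂ)
        simpa using this
      have h2 := h1.cexp
      have h3 : (fun z : ℂ => cexp (2 * π * I * z / h)) = Periodic.qParam h := by
        funext z; rfl
      rw [h3] at h2
      have h4 : cexp (2 * π * I * (τ : ℂ) / h) = Periodic.qParam h τ := rfl
      rw [h4] at h2
      exact h2
    have hcomp := (hK _ (hqnorm τ)).comp (τ : ℂ) hq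
    have hval : κ * dslope c 0 (Periodic.qParam h τ) * (Periodic.qParam h τ * (2 * π * I / h))
        = g τ := by
      have e1 : c (Periodic.qParam h τ) = g τ := eq_cuspFunction τ hh.ne' hper
      rw [← e1, hcd (Periodic.qParam h τ), hκ]
      field_simp
    rw [hval] at hcomp
    refine hcomp.congr_of_eventuallyEq ?_
    filter_upwards [isOpen_upperHalfPlaneSet.mem_nhds τ.im_pos] with z hz
    simp only [comp_apply]
    rw [ofComplex_apply_of_im_pos hz]
  · -- decay
    have hKc : ContinuousAt K 0 := (hK 0 (Metric.mem_ball_self one_pos)).continuousAt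
    have := hKc.tendsto.comp (qParam_tendsto_atImInfty hh)
    rw [hK0] at this
    exact this

/-- A function on the upper half plane with vanishing derivative is constant. -/
theorem exists_const_of_hasDerivAt_zero (H : ℍ → ℂ)
    (hH : ∀ τ : ℍ, HasDerivAt (H ∘ ofComplex) 0 ↑τ) : ∃ c : ℂ, ∀ z : ℍ, H z = c := by
  have hopen : IsOpen {z : ℂ | 0 < z.im} := isOpen_upperHalfPlaneSet
  have hconn : IsPreconnected {z : ℂ | 0 < z.im} :=
    (convex_halfSpace_im_gt 0).isPreconnected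
  have hdiff : DifferentiableOn ℂ (H ∘ ofComplex) {z : ℂ | 0 < z.im} := fun z hz =>
    (hH ⟨z, hz⟩).differentiableAt.differentiableWithinAt
  have hderiv : Set.EqOn (deriv (H ∘ ofComplex)) 0 {z : ℂ | 0 < z.im} := fun z hz =>
    (hH ⟨z, hz⟩).deriv
  obtain ⟨a, ha⟩ := hopen.exists_is_const_of_deriv_eq_zero hconn hdiff hderiv
  refine ⟨a, fun z => ?_⟩
  have := ha (z : ℂ) z.im_pos
  simpa using this

/-- Chain rule for the Möbius action of `SL(2, ℤ)`: if `F' = f` then `(F ∘ δ)' = f ∣[2] δ`. -/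
theorem hasDerivAt_comp_smul (F f : ℍ → ℂ)
    (hF : ∀ τ : ℍ, HasDerivAt (F ∘ ofComplex) (f τ) ↑τ) (δ : SL(2, ℤ)) (τ : ℍ) :
    HasDerivAt ((fun w : ℍ => F (δ • w)) ∘ ofComplex) ((f ∣[(2 : ℤ)] δ) τ) ↑τ := by
  have hdetv : ((Matrix.SpecialLinearGroup.mapGL ℝ δ : GL (Fin 2) ℝ).val).det = 1 := by
    rw [← Matrix.GeneralLinearGroup.val_det_apply, Matrix.SpecialLinearGroup.det_mapGL]
    rfl
  have hdet : 0 < ((Matrix.SpecialLinearGroup.mapGL ℝ δ : GL (Fin 2) ℝ).val).det := by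
    rw [hdetv]; exact one_pos
  have h1 : HasDerivAt
      (fun z : ℂ => (((Matrix.SpecialLinearGroup.mapGL ℝ δ : GL (Fin 2) ℝ) • ofComplex z : ℍ) : ℂ))
      ((((Matrix.SpecialLinearGroup.mapGL ℝ δ : GL (Fin 2) ℝ).val).det : ℂ) /
        denom (Matrix.SpecialLinearGroup.mapGL ℝ δ : GL (Fin 2) ℝ) τ ^ 2) τ :=
    (hasStrictDerivAt_smul hdet τ).hasDerivAt
  have h2 : HasDerivAt (F ∘ ofComplex) (f (δ • τ)) ((δ • τ : ℍ) : ℂ) := hF (δ • τ)
  have h2' : HasDerivAt (F ∘ ofComplex) (f (δ • τ))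
      (((Matrix.SpecialLinearGroup.mapGL ℝ δ : GL (Fin 2) ℝ) • ofComplex (τ : ℂ) : ℍ) : ℂ) := by
    rw [ofComplex_apply]
    exact h2
  have h3 := h2'.comp (τ : ℂ) h1
  have hfun : ((F ∘ ofComplex) ∘
      fun z : ℂ => (((Matrix.SpecialLinearGroup.mapGL ℝ δ : GL (Fin 2) ℝ) • ofComplex z : ℍ) : ℂ))
      = ((fun w : ℍ => F (δ • w)) ∘ ofComplex) := by
    funext z
    simp only [comp_apply, ofComplex_apply]
    rfl
  rw [hfun] at h3
  have hval : f (δ • τ) * ((((Matrix.SpecialLinearGroup.mapGL ℝ δ : GL (Fin 2) ℝ).val).det : ℂ) /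
        denom (Matrix.SpecialLinearGroup.mapGL ℝ δ : GL (Fin 2) ℝ) τ ^ 2)
      = (f ∣[(2 : ℤ)] δ) τ := by
    rw [ModularForm.SL_slash_apply, hdetv]
    have hne : denom (Matrix.SpecialLinearGroup.mapGL ℝ δ : GL (Fin 2) ℝ) τ ≠ 0 :=
      denom_ne_zero _ τ
    rw [zpow_neg]
    simp only [Complex.ofReal_one, one_div]
    rfl
  rw [hval] at h3
  exact h3

/-- **S21-A.** Every weight 2 cusp form on `Γ₀(N)` has an equivariant primitive in the sense of
`ModularCurve.HasEquivariantPrimitive`. -/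
theorem exists_hasEquivariantPrimitive (N : ℕ) [NeZero N]
    (f : CuspForm (CongruenceSubgroup.Gamma0 N) 2) :
    ∃ F : ℍ → ℂ, ModularCurve.HasEquivariantPrimitive N f F := by
  have hper1 : Periodic ((f : ℍ → ℂ) ∘ ofComplex) (1 : ℝ) :=
    SlashInvariantFormClass.periodic_comp_ofComplex f
      (CongruenceSubgroup.one_mem_strictPeriods_Gamma0 N)
  have hhol : MDiff (f : ℍ → ℂ) := CuspFormClass.holo f
  have hzero : IsZeroAtImInfty (f : ℍ → ℂ) := by
    have := CuspFormClass.zero_at_infty_slash f (1 : SL(2, ℤ))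
    simpa using this
  obtain ⟨F, hF, hF0⟩ := exists_decaying_primitive 1 one_pos f hper1 hhol hzero
  refine ⟨F, hF, hF0, ?_, ?_⟩
  · intro γ
    have hinv : (f : ℍ → ℂ) ∣[(2 : ℤ)] (γ : SL(2, ℤ)) = f :=
      SlashInvariantFormClass.slash_action_eq f _ (Subgroup.mem_map_of_mem _ γ.2)
    have hder : ∀ τ : ℍ,
        HasDerivAt ((fun z : ℍ => F ((γ : SL(2, ℤ)) • z) - F z) ∘ ofComplex) 0 τ := by
      intro τ
      have h1 := hasDerivAt_comp_smul F f hF γ τ
      rw [hinv] at h1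
      have h2 := h1.sub (hF τ)
      rw [sub_self] at h2
      exact h2
    exact exists_const_of_hasDerivAt_zero _ hder
  · intro δ
    obtain ⟨M, hM, hMper⟩ := Subgroup.IsArithmetic.exists_nat_mem_strictPeriods_conj
      ((CongruenceSubgroup.Gamma0 N : Subgroup SL(2, ℤ)) : Subgroup (GL (Fin 2) ℝ))
    have hMpos : (0 : ℝ) < (M : ℝ) := by exact_mod_cast hM
    have hperδ : Periodic (((f : ℍ → ℂ) ∣[(2 : ℤ)] δ) ∘ ofComplex) (M : ℝ) := by
      have h0 := hMper δ⁻¹
      rw [map_inv] at h0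
      exact SlashInvariantFormClass.periodic_comp_ofComplex
        (CuspForm.translate f (Matrix.SpecialLinearGroup.mapGL ℝ δ)) h0
    have hholδ : MDiff ((f : ℍ → ℂ) ∣[(2 : ℤ)] δ) :=
      CuspFormClass.holo (CuspForm.translate f (Matrix.SpecialLinearGroup.mapGL ℝ δ))
    have hzeroδ : IsZeroAtImInfty ((f : ℍ → ℂ) ∣[(2 : ℤ)] δ) :=
      CuspFormClass.zero_at_infty_slash f δ
    obtain ⟨G, hG, hG0⟩ := exists_decaying_primitive M hMpos _ hperδ hholδ hzeroδ
    have hder : ∀ τ : ℍ, HasDerivAt ((fun z : ℍ => F (δ • z) - G z) ∘ ofComplex) 0 τ := by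
      intro τ
      have h1 := hasDerivAt_comp_smul F f hF δ τ
      have h2 := h1.sub (hG τ)
      rw [sub_self] at h2
      exact h2
    obtain ⟨L, hL⟩ := exists_const_of_hasDerivAt_zero _ hder
    refine ⟨L, ?_⟩
    have hfun : (fun w : ℍ => F (δ • w)) = fun w => G w + L := by
      funext w
      have := hL w
      rw [← this]
      ring
    rw [hfun]
    simpa using hG0.add_const L

end Fermat.Agent.H63
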